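import Fermat.Agent.S20.Infty527.Structure

/-!
# Package C4 (`infty_structure`), hypothesis-explicit form (helper527)
-/

set_option autoImplicit false

namespace Fermat.Agent.S20.Infty527

open Filter Asymptotics Complex Function ModularForm CongruenceSubgroup EisensteinSeries
open UpperHalfPlane hiding I
open scoped Real Topology Manifold MatrixGroups ModularForm

lemma neg_one_mem_Gamma0 (N : ℕ) : (-1 : SL(2, ℤ)) ∈ Gamma0 N := by
  rw [Gamma0_mem]
  simp

lemma norm_expC_le_one {c : ℝ} (hc : 0 ≤ c) (τ : ℍ) : ‖expC c τ‖ ≤ 1 := by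
  rw [norm_expC, Real.exp_le_one_iff]
  have := τ.im_pos
  have hπ := Real.pi_pos
  have h1 : 0 ≤ 2 * π * c * τ.im := by positivity
  linarith

/-- Slash of a finite linear combination `∑ cf j • (a j * F j)` with level-one `a j`. -/
lemma conj527_combination {Γ : Subgroup SL(2, ℤ)} {ι : Type} [Fintype ι] (k : ι → ℤ)
    (F a : ι → ℍ → ℂ) (K : ℤ) (cf : ι → ℂ)
    (ha : ∀ j, IsMF527 ⊤ (K - k j) (a j)) (q : SL(2, ℤ) ⧸ Γ) :
    conj527 Γ K (∑ j, cf j • (a j * F j)) q =
      ∑ j, (cf j • a j) * conj527 Γ (k j) (F j) q := by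
  simp only [conj527]
  rw [SlashAction.sum_slash]
  refine Finset.sum_congr rfl fun j _ => ?_
  rw [ModularForm.SL_smul_slash]
  have h := ModularForm.mul_slash_SL2 (K - k j) (k j) ((q.out : SL(2, ℤ))⁻¹) (a j) (F j)
  rw [sub_add_cancel] at h
  rw [h, (ha j).2.1 _ (Subgroup.mem_top _), smul_mul_assoc]

/-- **C4, hypothesis-explicit.** -/
theorem infty_structure_core (N : ℕ)
    [Fintype (SL(2, ℤ) ⧸ Gamma0 N)] [DecidableEq (SL(2, ℤ) ⧸ Gamma0 N)]
    {ι : Type} [Fintype ι] (k : ι → ℤ) (F : ι → ℍ → ℂ)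
    (hmem : ∀ j, IsMF527 (Gamma0 N) (k j) (F j))
    (hspan : ∀ (w : ℤ) (f : ℍ → ℂ), IsMF527 (Gamma0 N) w f →
      ∃ a : ι → ℍ → ℂ, (∀ j, IsMF527 ⊤ (w - k j) (a j)) ∧ f = ∑ j, a j * F j)
    (hindep : ∀ (w : ℤ) (a : ι → ℍ → ℂ), (∀ j, IsMF527 ⊤ (w - k j) (a j)) →
      ∑ j, a j * F j = 0 → ∀ j, a j = 0)
    (hdiv : ∀ (K : ℤ) (f : ℍ → ℂ), IsMF527 (Gamma0 N) K f →
      (∀ g : SL(2, ℤ),
        (f ∣[K] g) =O[atImInfty] fun τ : ℍ => Real.exp (-2 * Real.pi * τ.im)) →
      ∃ h : ℍ → ℂ, IsMF527 (Gamma0 N) (K - 12) h ∧ f = ModularForm.discriminant * h) :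
    ∃ (e : (SL(2, ℤ) ⧸ Gamma0 N) → ℝ)
      (B : Matrix (SL(2, ℤ) ⧸ Gamma0 N) (SL(2, ℤ) ⧸ Gamma0 N) ℂ)
      (U : ℍ → Matrix ι (SL(2, ℤ) ⧸ Gamma0 N) ℂ)
      (L : Matrix ι (SL(2, ℤ) ⧸ Gamma0 N) ℂ),
      (∀ q, 0 ≤ e q ∧ e q < 1) ∧
      (2 * ∑ q, e q = ((Gamma0 N).index : ℝ) -
        (Nat.card (MulAction.orbitRel.Quotient (Subgroup.zpowers ModularGroup.T)
          (SL(2, ℤ) ⧸ Gamma0 N)) : ℝ)) ∧
      B.det ≠ 0 ∧
      (∀ (τ : ℍ) (j : ι) (q : SL(2, ℤ) ⧸ Gamma0 N),
        conj527 (Gamma0 N) (k j) (F j) q τ =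
          ∑ q', U τ j q' * Complex.exp (2 * Real.pi * Complex.I * e q' * τ) * B q' q) ∧
      (∀ j q, Tendsto (fun τ : ℍ => U τ j q) atImInfty (𝓝 (L j q))) ∧
      LinearIndependent ℂ (fun j : ι => L j) := by
  classical
  obtain ⟨e, B, B', he, hsum, hBB', hB'B, heig⟩ :=
    exists_cycle_dft (Gamma0 N) (ModularGroup.T⁻¹)
  let σ : Equiv.Perm (SL(2, ℤ) ⧸ Gamma0 N) := MulAction.toPerm (ModularGroup.T⁻¹ : SL(2, ℤ))
  have heigσ : ∀ q' q, B q' (σ q) = Complex.exp (2 * π * I * e q') * B q' q := heig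
  let c : ι → (SL(2, ℤ) ⧸ Gamma0 N) → ℍ → ℂ := fun j q => conj527 (Gamma0 N) (k j) (F j) q
  have hshift : ∀ j q τ, c j q ((1 : ℝ) +ᵥ τ) = c j (σ q) τ :=
    fun j q τ => conj527_vadd (hmem j).2.1 q τ
  have hcdiff : ∀ j q, MDiff (c j q) := fun j q => conj527_mdiff (hmem j).1 q
  have hcbdd : ∀ j q, IsBoundedAtImInfty (c j q) := fun j q => conj527_bounded (hmem j) q
  have hUper : ∀ j q' τ, Uop e B' (c j) q' ((1 : ℝ) +ᵥ τ) = Uop e B' (c j) q' τ :=
    fun j q' τ => Uop_vadd (σ := σ) hBB' hB'B heigσ (hshift j) q' τ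
  have hUdiff : ∀ j q', MDiff (Uop e B' (c j) q') := fun j q' => Uop_mdiff (hcdiff j) q'
  have hUbig : ∀ j q', Uop e B' (c j) q' =O[atImInfty]
      fun τ : ℍ => Real.exp (2 * π * e q' * τ.im) := fun j q' => Uop_isBigO (hcbdd j) q'
  have hlim : ∀ j q', ∃ L : ℂ, Tendsto (Uop e B' (c j) q') atImInfty (𝓝 L) := fun j q' =>
    tendsto_of_periodic_of_isBigO (hUdiff j q') (hUper j q') (he q').2 (hUbig j q')
  choose L hL using hlim
  refine ⟨e, B, fun τ j q' => Uop e B' (c j) q' τ, Matrix.of L, he, ?_, ?_, ?_, ?_, ?_⟩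
  · rw [hsum, Subgroup.zpowers_inv]
    rfl
  · exact Matrix.det_ne_zero_of_right_inverse hBB'
  · intro τ j q
    exact Uop_reconstruct hB'B (c j) q τ
  · exact hL
  · -- linear independence of the rows of `L`
    rw [Fintype.linearIndependent_iff]
    intro cf hcf j₀
    have hcfq : ∀ q', ∑ j, cf j * L j q' = 0 := by
      intro q'
      have := congrFun hcf q'
      simpa [Finset.sum_apply, Pi.smul_apply, Matrix.of_apply] using this
    -- the basis elements are nonzero, hence of even weight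
    have hFne : ∀ j, F j ≠ 0 := by
      intro j hj
      have h1 : ∀ i, IsMF527 ⊤ (k j - k i) ((Pi.single j (1 : ℍ → ℂ) : ι → ℍ → ℂ) i) := by
        intro i
        by_cases hij : i = j
        · subst hij
          rw [Pi.single_eq_same]
          exact isMF527_one.congr_weight (sub_self _).symm
        · rw [Pi.single_eq_of_ne hij]
          exact IsMF527.zero
      have h2 : ∑ i, (Pi.single j (1 : ℍ → ℂ) : ι → ℍ → ℂ) i * F i = 0 := by
        rw [Finset.sum_eq_single j]
        · rw [Pi.single_eq_same, hj, mul_zero]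
        · intro i _ hij
          rw [Pi.single_eq_of_ne hij, zero_mul]
        · intro h
          exact absurd (Finset.mem_univ j) h
      have h3 := hindep (k j) _ h1 h2 j
      rw [Pi.single_eq_same] at h3
      have h4 := congrFun h3 UpperHalfPlane.I
      simp at h4
    have hkeven : ∀ j, Even (k j) := fun j =>
      even_weight_of_ne_zero (neg_one_mem_Gamma0 N) (hmem j).2.1 (hFne j)
    -- the common weight
    set K : ℤ := 12 + 2 * ∑ j, |k j| with hK
    have hKge : ∀ j, 4 ≤ K - k j := by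
      intro j
      have h1 : |k j| ≤ ∑ i, |k i| :=
        Finset.single_le_sum (f := fun i => |k i|) (fun i _ => abs_nonneg _) (Finset.mem_univ j)
      have h2 : k j ≤ |k j| := le_abs_self _
      have h3 : 0 ≤ |k j| := abs_nonneg _
      rw [hK]
      linarith
    have hKeven : ∀ j, Even (K - k j) := by
      intro j
      refine Even.sub ?_ (hkeven j)
      rw [hK]
      exact Even.add ⟨6, rfl⟩ (even_two_mul _)
    choose a ha halim using fun j => exists_monomial (K - k j) (hKeven j) (hKge j)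
    set f : ℍ → ℂ := ∑ j, cf j • (a j * F j) with hf_def
    have hf : IsMF527 (Gamma0 N) K f := by
      refine IsMF527.sum _ fun j _ => IsMF527.smul _ ?_
      exact ((ha j).levelOne_mul (hmem j)).congr_weight (sub_add_cancel _ _)
    -- conjugates of `f`
    have hconj : ∀ q, conj527 (Gamma0 N) K f q = ∑ j, (cf j • a j) * c j q :=
      fun q => conj527_combination k F a K cf ha q
    have hconj' : (fun q => conj527 (Gamma0 N) K f q) = fun q => ∑ j, (cf j • a j) * c j q :=
      funext hconj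
    -- the Fourier coefficient functions of `f` tend to zero
    have hUf : ∀ q' τ, Uop e B' (fun q => conj527 (Gamma0 N) K f q) q' τ =
        ∑ j, (cf j • a j) τ * Uop e B' (c j) q' τ := by
      intro q' τ
      rw [hconj']
      exact Uop_linear (fun j => cf j • a j) c q' τ
    have hUf0 : ∀ q', IsZeroAtImInfty (Uop e B' (fun q => conj527 (Gamma0 N) K f q) q') := by
      intro q'
      have h1 : Tendsto (fun τ => ∑ j, (cf j • a j) τ * Uop e B' (c j) q' τ) atImInfty
          (𝓝 (∑ j, cf j * 1 * L j q')) := by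
        refine tendsto_finsetSum _ fun j _ => ?_
        refine Tendsto.mul ?_ (hL j q')
        exact (halim j).const_mul (cf j)
      have h2 : (∑ j, cf j * 1 * L j q') = 0 := by
        simpa using hcfq q'
      rw [h2] at h1
      exact h1.congr fun τ => (hUf q' τ).symm
    have hUfper : ∀ q' τ, Uop e B' (fun q => conj527 (Gamma0 N) K f q) q' ((1 : ℝ) +ᵥ τ) =
        Uop e B' (fun q => conj527 (Gamma0 N) K f q) q' τ := fun q' τ =>
      Uop_vadd (σ := σ) hBB' hB'B heigσ (fun q τ => conj527_vadd hf.2.1 q τ) q' τ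
    have hUfdiff : ∀ q', MDiff (Uop e B' (fun q => conj527 (Gamma0 N) K f q) q') := fun q' =>
      Uop_mdiff (fun q => conj527_mdiff hf.1 q) q'
    have hUfO : ∀ q', Uop e B' (fun q => conj527 (Gamma0 N) K f q) q' =O[atImInfty]
        fun τ : ℍ => Real.exp (-2 * π * τ.im) := fun q' =>
      isBigO_of_periodic_of_zero (hUfdiff q') (hUfper q') (hUf0 q')
    -- hence every conjugate of `f` decays
    have hconjO : ∀ q, conj527 (Gamma0 N) K f q =O[atImInfty]
        fun τ : ℍ => Real.exp (-2 * π * τ.im) := by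
      intro q
      have h1 : conj527 (Gamma0 N) K f q = fun τ =>
          ∑ q', Uop e B' (fun q => conj527 (Gamma0 N) K f q) q' τ * expC (e q') τ * B q' q :=
        funext fun τ => Uop_reconstruct hB'B (fun q => conj527 (Gamma0 N) K f q) q τ
      rw [h1]
      refine IsBigO.fun_sum fun q' _ => ?_
      have h2 : (fun τ : ℍ => expC (e q') τ * B q' q) =O[atImInfty] fun _ : ℍ => (1 : ℝ) := by
        refine IsBigO.of_bound ‖B q' q‖ (Eventually.of_forall fun τ => ?_)
        rw [norm_mul, norm_one, mul_one]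
        calc ‖expC (e q') τ‖ * ‖B q' q‖ ≤ 1 * ‖B q' q‖ :=
              mul_le_mul_of_nonneg_right (norm_expC_le_one (he q').1 τ) (norm_nonneg _)
          _ = ‖B q' q‖ := one_mul _
      have h3 := (hUfO q').mul h2
      refine h3.congr (fun τ => ?_) (fun τ => ?_)
      · ring
      · ring
    have hslashO : ∀ g : SL(2, ℤ),
        (f ∣[K] g) =O[atImInfty] fun τ : ℍ => Real.exp (-2 * Real.pi * τ.im) := by
      intro g
      rw [slash_eq_conj527 hf.2.1 g]
      exact hconjO _
    -- divide by `Δ`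
    obtain ⟨h, hh, hfh⟩ := hdiv K f hf hslashO
    obtain ⟨b, hb, hhb⟩ := hspan (K - 12) h hh
    have hw : ∀ j, IsMF527 ⊤ (K - k j) (cf j • a j - ModularForm.discriminant * b j) := by
      intro j
      refine ((ha j).smul (cf j)).sub ?_
      exact (isMF527_discriminant.levelOne_mul (hb j)).congr_weight (by ring)
    have key : ∑ j, (cf j • a j - ModularForm.discriminant * b j) * F j = 0 := by
      have h1 : ∑ j, (cf j • a j - ModularForm.discriminant * b j) * F j =
          f - ModularForm.discriminant * h := by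
        rw [hhb, hf_def, Finset.mul_sum, ← Finset.sum_sub_distrib]
        refine Finset.sum_congr rfl fun j _ => ?_
        rw [sub_mul, smul_mul_assoc, mul_assoc]
      rw [h1, ← hfh, sub_self]
    have h0 := hindep K _ hw key j₀
    -- take the limit at `i∞`
    have hlim1 : Tendsto (cf j₀ • a j₀) atImInfty (𝓝 (cf j₀)) := by
      have := (halim j₀).const_mul (cf j₀)
      rw [mul_one] at this
      exact this
    have hbbdd : IsBoundedAtImInfty (b j₀) := by
      have := (hb j₀).2.2 1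
      rwa [SlashAction.slash_one] at this
    have hlim2 : Tendsto (ModularForm.discriminant * b j₀) atImInfty (𝓝 0) := by
      have h1 : ModularForm.discriminant =o[atImInfty] fun _ : ℍ => (1 : ℂ) :=
        (isLittleO_one_iff ℂ).2 ModularForm.discriminant_isZeroAtImInfty
      have h2 : b j₀ =O[atImInfty] fun _ : ℍ => (1 : ℂ) := by
        have : b j₀ =O[atImInfty] (1 : ℍ → ℝ) := hbbdd
        exact this.trans (IsBigO.of_bound 1 (Eventually.of_forall fun τ => by simp))
      have h3 := h1.mul_isBigO h2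
      simp only [mul_one] at h3
      exact (isLittleO_one_iff ℂ).1 h3
    have heq : cf j₀ • a j₀ = ModularForm.discriminant * b j₀ := sub_eq_zero.1 h0
    rw [heq] at hlim1
    exact tendsto_nhds_unique hlim1 hlim2

end Fermat.Agent.S20.Infty527
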