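import Mathlib

/-!
# Spectral decomposition of a translation on a finite coset space (helper527)

For a group `G`, a subgroup `H` of finite index and `g : G`, the permutation `x ↦ g • x` of
`G ⧸ H` is diagonalised by a block discrete Fourier transform along the `g`-orbits.
-/

set_option autoImplicit false

namespace Fermat.Agent.S20.Infty527

open Matrix MulAction Subgroup Function

section Block

variable (n : ℕ) [NeZero n]

/-- The DFT block. -/
noncomputable def dftM : Matrix (ZMod n) (ZMod n) ℂ :=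
  Matrix.of fun k' k => ZMod.stdAddChar (k' * k)

/-- The inverse DFT block. -/
noncomputable def dftM' : Matrix (ZMod n) (ZMod n) ℂ :=
  Matrix.of fun k k' => (n : ℂ)⁻¹ * ZMod.stdAddChar (-(k * k'))

lemma dftM_mul_dftM' : dftM n * dftM' n = 1 := by
  classical
  ext k' k''
  simp only [Matrix.mul_apply, dftM, dftM', Matrix.of_apply, Matrix.one_apply]
  have h1 : ∀ k : ZMod n, ZMod.stdAddChar (k' * k) * ((n : ℂ)⁻¹ * ZMod.stdAddChar (-(k * k''))) =
      (n : ℂ)⁻¹ * ZMod.stdAddChar (k * (k' - k'')) := by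
    intro k
    rw [mul_left_comm, ← AddChar.map_add_eq_mul]
    congr 2
    ring
  simp_rw [h1, ← Finset.mul_sum, AddChar.sum_mulShift _ (ZMod.isPrimitive_stdAddChar n)]
  have hn : (n : ℂ) ≠ 0 := Nat.cast_ne_zero.mpr (NeZero.ne n)
  by_cases h : k' = k''
  · simp [h, ZMod.card, hn]
  · simp [h, sub_eq_zero]

lemma dftM_apply_add_one (k' k : ZMod n) :
    dftM n k' (k + 1) = ZMod.stdAddChar k' * dftM n k' k := by
  simp only [dftM, Matrix.of_apply]
  rw [mul_add, mul_one, AddChar.map_add_eq_mul, mul_comm]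

lemma stdAddChar_eq_exp (k : ZMod n) :
    ZMod.stdAddChar k = Complex.exp (2 * Real.pi * Complex.I * ((k.val : ℝ) / (n : ℝ) : ℝ)) := by
  have h := ZMod.stdAddChar_coe (N := n) (k.val : ℤ)
  rw [Int.cast_natCast, ZMod.natCast_zmod_val] at h
  rw [h]
  congr 1
  push_cast
  ring

lemma sum_val_zmod : (∑ k : ZMod n, (k.val : ℝ)) = (n : ℝ) * ((n : ℝ) - 1) / 2 := by
  obtain ⟨m, rfl⟩ : ∃ m, n = m + 1 := Nat.exists_eq_succ_of_ne_zero (NeZero.ne n)
  have h1 : (∑ k : ZMod (m + 1), (k.val : ℝ)) = ∑ i : Fin (m + 1), ((i : ℕ) : ℝ) := rfl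
  rw [h1, Fin.sum_univ_eq_sum_range (fun i => (i : ℝ)) (m + 1)]
  have h2 := Finset.sum_range_id_mul_two (m + 1)
  have h3 : ((∑ i ∈ Finset.range (m + 1), i : ℕ) : ℝ) * 2 = ((m + 1 : ℕ) : ℝ) * (m : ℝ) := by
    have := congrArg (fun x : ℕ => (x : ℝ)) h2
    simpa using this
  push_cast at h3 ⊢
  linarith

lemma val_div_lt_one (k : ZMod n) : ((k.val : ℝ) / (n : ℝ)) < 1 := by
  have hn : (0 : ℝ) < n := Nat.cast_pos.mpr (Nat.pos_of_ne_zero (NeZero.ne n))
  rw [div_lt_one hn]
  exact_mod_cast ZMod.val_lt k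

end Block

section Main

variable {G : Type*} [Group G] (H : Subgroup G) (g : G)

lemma quotientEquivSigmaZMod_smul (x : G ⧸ H) :
    quotientEquivSigmaZMod H g (g • x) =
      ⟨(quotientEquivSigmaZMod H g x).1, (quotientEquivSigmaZMod H g x).2 + 1⟩ := by
  obtain ⟨⟨ω, k⟩, rfl⟩ := (quotientEquivSigmaZMod H g).symm.surjective x
  rw [Equiv.apply_symm_apply, quotientEquivSigmaZMod_symm_apply, ← mul_smul,
    ← _root_.zpow_one_add, quotientEquivSigmaZMod_apply]
  congr 1
  push_cast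
  rw [add_comm]

variable [Fintype (G ⧸ H)] [DecidableEq (G ⧸ H)]

/-- **Block DFT along the orbits of `g` on `G ⧸ H`.** -/
theorem exists_cycle_dft :
    ∃ (e : G ⧸ H → ℝ) (B B' : Matrix (G ⧸ H) (G ⧸ H) ℂ),
      (∀ q, 0 ≤ e q ∧ e q < 1) ∧
      (2 * ∑ q, e q = (Nat.card (G ⧸ H) : ℝ) -
        (Nat.card (orbitRel.Quotient (zpowers g) (G ⧸ H)) : ℝ)) ∧
      B * B' = 1 ∧ B' * B = 1 ∧
      (∀ q' q, B q' (g • q) = Complex.exp (2 * Real.pi * Complex.I * e q') * B q' q) := by
  classical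
  haveI : Fintype (orbitRel.Quotient (zpowers g) (G ⧸ H)) := Fintype.ofFinite _
  set φ := quotientEquivSigmaZMod H g with hφ
  -- the block matrices on the sigma type
  let Bs : Matrix (Σ ω : orbitRel.Quotient (zpowers g) (G ⧸ H),
      ZMod (minimalPeriod (g • ·) ω.out)) (Σ ω : orbitRel.Quotient (zpowers g) (G ⧸ H),
      ZMod (minimalPeriod (g • ·) ω.out)) ℂ :=
    Matrix.blockDiagonal' fun ω => dftM (minimalPeriod (g • ·) ω.out)
  let Bs' : Matrix (Σ ω : orbitRel.Quotient (zpowers g) (G ⧸ H),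
      ZMod (minimalPeriod (g • ·) ω.out)) (Σ ω : orbitRel.Quotient (zpowers g) (G ⧸ H),
      ZMod (minimalPeriod (g • ·) ω.out)) ℂ :=
    Matrix.blockDiagonal' fun ω => dftM' (minimalPeriod (g • ·) ω.out)
  have hBs : Bs * Bs' = 1 := by
    simp only [Bs, Bs']
    rw [← Matrix.blockDiagonal'_mul]
    simp only [dftM_mul_dftM']
    exact Matrix.blockDiagonal'_one
  have hBs' : Bs' * Bs = 1 := mul_eq_one_comm.1 hBs
  have hB : Bs.submatrix φ φ * Bs'.submatrix φ φ = 1 := by
    rw [Matrix.submatrix_mul_equiv, hBs, Matrix.submatrix_one_equiv]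
  have hB' : Bs'.submatrix φ φ * Bs.submatrix φ φ = 1 := by
    rw [Matrix.submatrix_mul_equiv, hBs', Matrix.submatrix_one_equiv]
  refine ⟨fun x => ((φ x).2.val : ℝ) / (minimalPeriod (g • ·) (φ x).1.out : ℝ),
    Bs.submatrix φ φ, Bs'.submatrix φ φ, ?_, ?_, ?_, ?_, ?_⟩
  · intro q
    refine ⟨by positivity, val_div_lt_one _ _⟩
  · -- the sum of exponents
    rw [Equiv.sum_comp φ (fun s : (Σ ω : orbitRel.Quotient (zpowers g) (G ⧸ H),
      ZMod (minimalPeriod (g • ·) ω.out)) =>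
        ((s.2.val : ℝ) / (minimalPeriod (g • ·) s.1.out : ℝ))), Fintype.sum_sigma]
    have h1 : ∀ ω : orbitRel.Quotient (zpowers g) (G ⧸ H),
        (∑ k : ZMod (minimalPeriod (g • ·) ω.out),
          ((k.val : ℝ) / (minimalPeriod (g • ·) ω.out : ℝ))) =
          ((minimalPeriod (g • ·) ω.out : ℝ) - 1) / 2 := by
      intro ω
      have hn : ((minimalPeriod (g • ·) ω.out : ℕ) : ℝ) ≠ 0 :=
        Nat.cast_ne_zero.mpr (NeZero.ne _)
      rw [← Finset.sum_div, sum_val_zmod]
      field_simp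
    simp only [h1]
    rw [← Finset.sum_div, Finset.sum_sub_distrib]
    have h2 : (Nat.card (G ⧸ H) : ℝ) =
        ∑ ω : orbitRel.Quotient (zpowers g) (G ⧸ H), (minimalPeriod (g • ·) ω.out : ℝ) := by
      rw [Nat.card_eq_fintype_card, Fintype.card_congr φ, Fintype.card_sigma]
      push_cast
      simp only [ZMod.card]
    rw [h2, Nat.card_eq_fintype_card]
    simp only [Finset.sum_const, Finset.card_univ, nsmul_eq_mul, mul_one]
    ring
  · exact hB
  · exact hB'
  · intro q' q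
    simp only [Matrix.submatrix_apply]
    rw [hφ, quotientEquivSigmaZMod_smul]
    generalize quotientEquivSigmaZMod H g q' = s'
    generalize quotientEquivSigmaZMod H g q = s
    obtain ⟨ω', k'⟩ := s'
    obtain ⟨ω, k⟩ := s
    simp only [Bs, Matrix.blockDiagonal'_apply]
    by_cases h : ω' = ω
    · subst h
      simp only [dif_pos, cast_eq]
      rw [dftM_apply_add_one, stdAddChar_eq_exp]
    · simp [h]

end Main

end Fermat.Agent.S20.Infty527
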