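import Mathlib

/-!
# Limits at `i∞` of `1`-periodic holomorphic functions of slow growth (helper527)
-/

set_option autoImplicit false

namespace Fermat.Agent.S20.Infty527

open Filter Asymptotics Complex Function
open UpperHalfPlane hiding I
open scoped Real Topology Manifold

/-- A differentiable function on `ℂ`, restricted to `ℍ`, is `MDiff`. -/
lemma mdiff_of_differentiable {F : ℂ → ℂ} (hF : Differentiable ℂ F) :
    MDiff (fun τ : ℍ => F (τ : ℂ)) := by
  rw [UpperHalfPlane.mdifferentiable_iff]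
  refine hF.differentiableOn.congr fun z hz => ?_
  simp only [comp_apply]
  rw [ofComplex_apply_of_im_pos hz]

/-- The function `τ ↦ exp (2πi c τ)` on `ℍ`. -/
noncomputable def expC (c : ℂ) : ℍ → ℂ := fun τ => Complex.exp (2 * π * I * c * τ)

lemma mdiff_expC (c : ℂ) : MDiff (expC c) :=
  mdiff_of_differentiable (F := fun z => Complex.exp (2 * π * I * c * z)) (by fun_prop)

lemma norm_expC (c : ℝ) (τ : ℍ) : ‖expC c τ‖ = Real.exp (-2 * π * c * τ.im) := by
  rw [expC, Complex.norm_exp]
  congr 1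
  simp [Complex.mul_re, Complex.mul_im]

lemma expC_ne_zero (c : ℂ) (τ : ℍ) : expC c τ ≠ 0 := Complex.exp_ne_zero _

lemma expC_add (c d : ℂ) (τ : ℍ) : expC (c + d) τ = expC c τ * expC d τ := by
  rw [expC, expC, expC, ← Complex.exp_add]
  congr 1
  ring

lemma expC_neg (c : ℂ) (τ : ℍ) : expC (-c) τ = (expC c τ)⁻¹ := by
  rw [expC, expC, ← Complex.exp_neg]
  congr 1
  ring

lemma expC_zero (τ : ℍ) : expC 0 τ = 1 := by simp [expC]

lemma expC_vadd (c : ℂ) (τ : ℍ) :
    expC c ((1 : ℝ) +ᵥ τ) = Complex.exp (2 * π * I * c) * expC c τ := by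
  rw [expC, expC, ← Complex.exp_add]
  congr 1
  simp only [UpperHalfPlane.coe_vadd]
  push_cast
  ring

lemma expC_one_vadd (τ : ℍ) : expC 1 ((1 : ℝ) +ᵥ τ) = expC 1 τ := by
  rw [expC_vadd, mul_one, Complex.exp_two_pi_mul_I, one_mul]

lemma expC_one_eq_qParam (τ : ℍ) : expC 1 τ = Function.Periodic.qParam 1 τ := by
  simp [expC, Function.Periodic.qParam]

/-- `1`-periodicity on `ℍ` gives `1`-periodicity of `f ∘ ofComplex`. -/
lemma periodic_comp_ofComplex {f : ℍ → ℂ} (hf : ∀ τ : ℍ, f ((1 : ℝ) +ᵥ τ) = f τ) :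
    Periodic (f ∘ ofComplex) (1 : ℝ) := by
  intro w
  by_cases hw : 0 < im w
  · have hw' : 0 < im (w + (1 : ℝ)) := by simpa using hw
    simp only [comp_apply, ofComplex_apply_of_im_pos hw', ofComplex_apply_of_im_pos hw]
    rw [← hf ⟨w, hw⟩]
    congr 1
    ext
    simp [add_comm]
  · have hw0 : im w ≤ 0 := not_lt.mp hw
    have hw' : im (w + ((1 : ℝ) : ℂ)) ≤ 0 := by simpa using hw0
    show f (ofComplex (w + ((1 : ℝ) : ℂ))) = f (ofComplex w)
    rw [ofComplex_apply_of_im_nonpos hw', ofComplex_apply_of_im_nonpos hw0]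

/-- If `u` is holomorphic, `1`-periodic and zero at `i∞`, it decays like `exp (-2π Im τ)`. -/
theorem isBigO_of_periodic_of_zero {u : ℍ → ℂ} (hu : MDiff u)
    (hper : ∀ τ : ℍ, u ((1 : ℝ) +ᵥ τ) = u τ) (h0 : IsZeroAtImInfty u) :
    u =O[atImInfty] fun τ : ℍ => Real.exp (-2 * π * τ.im) := by
  have := h0.exp_decay_atImInfty (h := 1) one_pos (periodic_comp_ofComplex hper) hu
    h0.isBoundedAtImInfty
  simpa using this

/-- If `u` is holomorphic, `1`-periodic and `O(exp (2π c Im τ))` with `c < 1`, then `u` has a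
limit at `i∞`. -/
theorem tendsto_of_periodic_of_isBigO {u : ℍ → ℂ} (hu : MDiff u)
    (hper : ∀ τ : ℍ, u ((1 : ℝ) +ᵥ τ) = u τ) {c : ℝ} (hc : c < 1)
    (hbd : u =O[atImInfty] fun τ : ℍ => Real.exp (2 * π * c * τ.im)) :
    ∃ L : ℂ, Tendsto u atImInfty (𝓝 L) := by
  -- `v = q * u` is zero at `i∞`
  set v : ℍ → ℂ := fun τ => expC 1 τ * u τ with hv
  have hvdiff : MDiff v := (mdiff_expC 1).mul hu
  have hvper : ∀ τ : ℍ, v ((1 : ℝ) +ᵥ τ) = v τ := fun τ => by
    simp only [hv, expC_one_vadd, hper]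
  have hvzero : IsZeroAtImInfty v := by
    -- ‖v‖ ≤ C * exp (-2π (1 - c) Im τ)
    have h1 : v =O[atImInfty] fun τ : ℍ => Real.exp (-2 * π * (1 - c) * τ.im) := by
      have hq : (expC 1) =O[atImInfty] fun τ : ℍ => Real.exp (-2 * π * τ.im) := by
        refine IsBigO.of_bound 1 (Eventually.of_forall fun τ => ?_)
        have := norm_expC 1 τ
        simp only [Complex.ofReal_one] at this
        rw [this, one_mul, Real.norm_eq_abs, abs_of_pos (Real.exp_pos _)]
        simp
      refine (hq.mul hbd).congr_right fun τ => ?_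
      rw [← Real.exp_add]
      congr 1
      ring
    have h2 : Tendsto (fun τ : ℍ => Real.exp (-2 * π * (1 - c) * τ.im)) atImInfty (𝓝 0) := by
      have h3 : Tendsto (fun τ : ℍ => τ.im) atImInfty atTop := tendsto_comap
      have h4 : Tendsto (fun τ : ℍ => -2 * π * (1 - c) * τ.im) atImInfty atBot := by
        have hneg : -2 * π * (1 - c) < 0 := by
          have : 0 < 1 - c := by linarith
          have hπ := Real.pi_pos
          nlinarith
        exact h3.const_mul_atTop_of_neg hneg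
      exact Real.tendsto_exp_atBot.comp h4
    exact h1.trans_tendsto h2
  -- the cusp function of `v`
  have hvperC := periodic_comp_ofComplex hvper
  have hVan : AnalyticAt ℂ (cuspFunction 1 v) 0 :=
    analyticAt_cuspFunction_zero one_pos hvperC hvdiff hvzero.isBoundedAtImInfty
  have hV0 : cuspFunction 1 v 0 = 0 := hvzero.cuspFunction_apply_zero one_pos
  refine ⟨dslope (cuspFunction 1 v) 0 0, ?_⟩
  have hcont : ContinuousAt (dslope (cuspFunction 1 v) 0) 0 :=
    continuousAt_dslope_same.2 hVan.differentiableAt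
  have hq : Tendsto (fun τ : ℍ => Function.Periodic.qParam 1 τ) atImInfty (𝓝 0) :=
    qParam_tendsto_atImInfty one_pos
  have := hcont.tendsto.comp hq
  refine this.congr fun τ => ?_
  simp only [comp_apply]
  have hqne : Function.Periodic.qParam 1 (τ : ℂ) ≠ 0 := Function.Periodic.qParam_ne_zero _
  rw [dslope_of_ne _ hqne, slope_def_field, hV0, sub_zero, sub_zero,
    UpperHalfPlane.eq_cuspFunction τ one_ne_zero hvperC, hv]
  simp only
  rw [← expC_one_eq_qParam]
  field_simp [expC_ne_zero]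

end Fermat.Agent.S20.Infty527
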