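import Fermat.Agent.S20.Infty527.CycleDFT
import Fermat.Agent.S20.Infty527.PeriodicLimit

/-!
# Structure at `i∞` of the conjugates of modular forms on `Γ₀(N)` (helper527)

Hypothesis-explicit version of package C4 (`infty_structure`) of the S20 skeleton.
-/

set_option autoImplicit false

namespace Fermat.Agent.S20.Infty527

open Filter Asymptotics Complex Function ModularForm CongruenceSubgroup
open UpperHalfPlane hiding I
open scoped Real Topology Manifold MatrixGroups ModularForm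

/-- Copy of the skeleton's `IsMF`: holomorphic, `Γ`-invariant of weight `k`, every
`SL(2,ℤ)`-translate bounded at `i∞`. -/
def IsMF527 (Γ : Subgroup SL(2, ℤ)) (k : ℤ) (f : ℍ → ℂ) : Prop :=
  MDiff f ∧ (∀ γ ∈ Γ, f ∣[k] γ = f) ∧ ∀ g : SL(2, ℤ), IsBoundedAtImInfty (f ∣[k] g)

/-- Copy of the skeleton's `conj`. -/
noncomputable def conj527 (Γ : Subgroup SL(2, ℤ)) (k : ℤ) (f : ℍ → ℂ) (q : SL(2, ℤ) ⧸ Γ) :
    ℍ → ℂ :=
  f ∣[k] ((q.out : SL(2, ℤ))⁻¹)

section conjAPI

variable {Γ : Subgroup SL(2, ℤ)} {k : ℤ} {f : ℍ → ℂ}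

lemma conj527_mk (hf : ∀ γ ∈ Γ, f ∣[k] γ = f) (g : SL(2, ℤ)) :
    conj527 Γ k f (QuotientGroup.mk g) = f ∣[k] g⁻¹ := by
  obtain ⟨h, hh⟩ := QuotientGroup.mk_out_eq_mul Γ g
  rw [conj527, hh, mul_inv_rev, SlashAction.slash_mul, hf _ (Γ.inv_mem h.2)]

lemma conj527_slash (hf : ∀ γ ∈ Γ, f ∣[k] γ = f) (q : SL(2, ℤ) ⧸ Γ) (γ : SL(2, ℤ)) :
    (conj527 Γ k f q) ∣[k] γ = conj527 Γ k f (γ⁻¹ • q) := by
  obtain ⟨g, rfl⟩ := QuotientGroup.mk_surjective q
  rw [conj527_mk hf, ← SlashAction.slash_mul, MulAction.Quotient.smul_mk, conj527_mk hf]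
  congr 1
  simp [mul_inv_rev]

lemma slash_T_apply (φ : ℍ → ℂ) (k : ℤ) (τ : ℍ) :
    (φ ∣[k] ModularGroup.T) τ = φ ((1 : ℝ) +ᵥ τ) := by
  rw [SL_slash_apply, UpperHalfPlane.modular_T_smul]
  have : denom (ModularGroup.T) τ = 1 := by
    simp [ModularGroup.denom_apply, ModularGroup.T]
  rw [this, one_zpow, mul_one]

lemma conj527_vadd (hf : ∀ γ ∈ Γ, f ∣[k] γ = f) (q : SL(2, ℤ) ⧸ Γ) (τ : ℍ) :
    conj527 Γ k f q ((1 : ℝ) +ᵥ τ) = conj527 Γ k f (ModularGroup.T⁻¹ • q) τ := by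
  rw [← slash_T_apply (conj527 Γ k f q) k τ, conj527_slash hf]

lemma conj527_mdiff (hf : MDiff f) (q : SL(2, ℤ) ⧸ Γ) : MDiff (conj527 Γ k f q) :=
  hf.slash k _

lemma conj527_bounded (hf : IsMF527 Γ k f) (q : SL(2, ℤ) ⧸ Γ) :
    IsBoundedAtImInfty (conj527 Γ k f q) :=
  hf.2.2 _

lemma slash_eq_conj527 (hf : ∀ γ ∈ Γ, f ∣[k] γ = f) (g : SL(2, ℤ)) :
    f ∣[k] g = conj527 Γ k f (QuotientGroup.mk g⁻¹) := by
  rw [conj527_mk hf, inv_inv]

end conjAPI

section Uop

variable {Q : Type*} [Fintype Q] [DecidableEq Q] (σ : Equiv.Perm Q) (e : Q → ℝ)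
  (B B' : Matrix Q Q ℂ)

/-- The "Fourier coefficient functions". -/
noncomputable def Uop (c : Q → ℍ → ℂ) (q' : Q) : ℍ → ℂ :=
  fun τ => expC (-(e q' : ℂ)) τ * ∑ q, c q τ * B' q q'

variable {σ e B B'}

lemma eigen_inv (hBB' : B * B' = 1) (hB'B : B' * B = 1)
    (heig : ∀ q' q, B q' (σ q) = Complex.exp (2 * π * I * e q') * B q' q) (q q' : Q) :
    B' (σ q) q' * Complex.exp (2 * π * I * e q') = B' q q' := by
  set C : Matrix Q Q ℂ := Matrix.of fun q q' => B' (σ q) q' * Complex.exp (2 * π * I * e q')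
    with hC
  have hCB : C * B = 1 := by
    ext q r
    rw [Matrix.mul_apply, Matrix.one_apply]
    have h1 : ∀ q', C q q' * B q' r = B' (σ q) q' * B q' (σ r) := by
      intro q'
      rw [hC, Matrix.of_apply, heig, mul_assoc]
    simp_rw [h1]
    have h2 := congrFun (congrFun hB'B (σ q)) (σ r)
    rw [Matrix.mul_apply, Matrix.one_apply] at h2
    rw [h2]
    simp [σ.injective.eq_iff]
  have : C = B' := by
    calc C = C * (B * B') := by rw [hBB', mul_one]
      _ = (C * B) * B' := by rw [mul_assoc]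
      _ = B' := by rw [hCB, one_mul]
  have h3 := congrFun (congrFun this q) q'
  rw [hC, Matrix.of_apply] at h3
  exact h3

lemma Uop_vadd (hBB' : B * B' = 1) (hB'B : B' * B = 1)
    (heig : ∀ q' q, B q' (σ q) = Complex.exp (2 * π * I * e q') * B q' q)
    {c : Q → ℍ → ℂ} (hc : ∀ q τ, c q ((1 : ℝ) +ᵥ τ) = c (σ q) τ) (q' : Q) (τ : ℍ) :
    Uop e B' c q' ((1 : ℝ) +ᵥ τ) = Uop e B' c q' τ := by
  simp only [Uop]
  rw [expC_vadd]
  have h1 : ∑ q, c q ((1 : ℝ) +ᵥ τ) * B' q q' =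
      Complex.exp (2 * π * I * e q') * ∑ q, c q τ * B' q q' := by
    rw [Finset.mul_sum, ← Equiv.sum_comp σ (fun q => Complex.exp (2 * π * I * e q') *
      (c q τ * B' q q'))]
    refine Finset.sum_congr rfl fun q _ => ?_
    rw [hc, ← eigen_inv hBB' hB'B heig q q']
    ring
  rw [h1, ← mul_assoc, mul_comm (Complex.exp _ * _), ← mul_assoc, ← Complex.exp_add]
  have : 2 * π * I * (e q' : ℂ) + 2 * π * I * -(e q' : ℂ) = 0 := by ring
  rw [this, Complex.exp_zero, one_mul]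

lemma mdiff_sum {ι : Type*} (s : Finset ι) (F : ι → ℍ → ℂ) (hF : ∀ i ∈ s, MDiff (F i)) :
    MDiff (fun τ => ∑ i ∈ s, F i τ) := by
  classical
  induction s using Finset.induction_on with
  | empty => simpa using (mdifferentiable_const : MDiff (fun _ : ℍ => (0 : ℂ)))
  | insert a s ha ih =>
    simp only [Finset.sum_insert ha]
    exact (hF a (Finset.mem_insert_self a s)).add
      (ih fun i hi => hF i (Finset.mem_insert_of_mem hi))

omit [DecidableEq Q] in
lemma Uop_mdiff {c : Q → ℍ → ℂ} (hc : ∀ q, MDiff (c q)) (q' : Q) : MDiff (Uop e B' c q') := by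
  refine (mdiff_expC _).mul (mdiff_sum _ _ fun q _ => ?_)
  exact (hc q).mul mdifferentiable_const

omit [DecidableEq Q] in
lemma Uop_isBigO {c : Q → ℍ → ℂ} (hc : ∀ q, IsBoundedAtImInfty (c q)) (q' : Q) :
    Uop e B' c q' =O[atImInfty] fun τ : ℍ => Real.exp (2 * π * e q' * τ.im) := by
  have h1 : (expC (-(e q' : ℂ))) =O[atImInfty] fun τ : ℍ => Real.exp (2 * π * e q' * τ.im) := by
    refine IsBigO.of_bound 1 (Eventually.of_forall fun τ => ?_)
    have := norm_expC (-(e q')) τ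
    simp only [Complex.ofReal_neg] at this
    rw [this, one_mul, Real.norm_eq_abs, abs_of_pos (Real.exp_pos _)]
    apply le_of_eq
    congr 1
    ring
  have h2 : BoundedAtFilter atImInfty (fun τ => ∑ q, c q τ * B' q q') := by
    have h3 : BoundedAtFilter atImInfty (∑ q, fun τ => c q τ * B' q q') := by
      refine Finset.sum_induction _ (fun g : ℍ → ℂ => BoundedAtFilter atImInfty g)
        (fun a b ha hb => ha.add hb) (const_boundedAtFilter atImInfty (0 : ℂ)) fun q _ => ?_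
      exact (hc q).mul (const_boundedAtFilter atImInfty (B' q q'))
    have h4 : (∑ q, fun τ => c q τ * B' q q') = fun τ => ∑ q, c q τ * B' q q' := by
      funext τ
      simp
    rwa [h4] at h3
  refine (h1.mul h2).congr (fun τ => rfl) (fun τ => ?_)
  simp

lemma Uop_reconstruct (hB'B : B' * B = 1) (c : Q → ℍ → ℂ) (q : Q) (τ : ℍ) :
    c q τ = ∑ q', Uop e B' c q' τ * expC (e q') τ * B q' q := by
  have h1 : ∀ q', Uop e B' c q' τ * expC (e q') τ * B q' q =
      ∑ r, c r τ * (B' r q' * B q' q) := by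
    intro q'
    simp only [Uop]
    have : expC (-(e q' : ℂ)) τ * expC (e q') τ = 1 := by
      rw [← expC_add, neg_add_cancel, expC_zero]
    calc expC (-(e q' : ℂ)) τ * (∑ r, c r τ * B' r q') * expC (e q') τ * B q' q
        = (expC (-(e q' : ℂ)) τ * expC (e q') τ) * ((∑ r, c r τ * B' r q') * B q' q) := by ring
      _ = ∑ r, c r τ * (B' r q' * B q' q) := by
          rw [this, one_mul, Finset.sum_mul]
          refine Finset.sum_congr rfl fun r _ => ?_
          ring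
  simp_rw [h1]
  rw [Finset.sum_comm]
  simp_rw [← Finset.mul_sum]
  have h2 : ∀ r, ∑ q', B' r q' * B q' q = if r = q then 1 else 0 := by
    intro r
    have := congrFun (congrFun hB'B r) q
    rw [Matrix.mul_apply, Matrix.one_apply] at this
    exact this
  simp_rw [h2]
  simp

omit [DecidableEq Q] in
lemma Uop_linear {ι : Type*} [Fintype ι] (a : ι → ℍ → ℂ) (c : ι → Q → ℍ → ℂ) (q' : Q) (τ : ℍ) :
    Uop e B' (fun q => ∑ j, a j * c j q) q' τ = ∑ j, a j τ * Uop e B' (c j) q' τ := by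
  simp only [Uop, Finset.sum_apply, Pi.mul_apply, Finset.sum_mul, Finset.mul_sum]
  rw [Finset.sum_comm]
  refine Finset.sum_congr rfl fun j _ => Finset.sum_congr rfl fun q _ => ?_
  ring

end Uop

end Fermat.Agent.S20.Infty527

namespace Fermat.Agent.S20.Infty527

open Filter Asymptotics Complex Function ModularForm CongruenceSubgroup EisensteinSeries
open UpperHalfPlane hiding I
open scoped Real Topology Manifold MatrixGroups ModularForm

section closure

variable {Γ : Subgroup SL(2, ℤ)} {k : ℤ}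

lemma IsMF527.zero : IsMF527 Γ k 0 := by
  refine ⟨mdifferentiable_const, fun γ _ => SlashAction.zero_slash _ _, fun γ => ?_⟩
  rw [SlashAction.zero_slash]
  exact zero_form_isBoundedAtImInfty

lemma IsMF527.add {f g : ℍ → ℂ} (hf : IsMF527 Γ k f) (hg : IsMF527 Γ k g) :
    IsMF527 Γ k (f + g) := by
  refine ⟨hf.1.add hg.1, fun γ hγ => ?_, fun γ => ?_⟩
  · rw [SlashAction.add_slash, hf.2.1 γ hγ, hg.2.1 γ hγ]
  · rw [SlashAction.add_slash]
    exact (hf.2.2 γ).add (hg.2.2 γ)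

lemma IsMF527.smul {f : ℍ → ℂ} (c : ℂ) (hf : IsMF527 Γ k f) : IsMF527 Γ k (c • f) := by
  refine ⟨hf.1.const_smul c, fun γ hγ => ?_, fun γ => ?_⟩
  · rw [ModularForm.SL_smul_slash, hf.2.1 γ hγ]
  · rw [ModularForm.SL_smul_slash]
    exact (hf.2.2 γ).const_smul_left c

lemma IsMF527.neg {f : ℍ → ℂ} (hf : IsMF527 Γ k f) : IsMF527 Γ k (-f) := by
  have := hf.smul (-1)
  simpa using this

lemma IsMF527.sub {f g : ℍ → ℂ} (hf : IsMF527 Γ k f) (hg : IsMF527 Γ k g) :
    IsMF527 Γ k (f - g) := by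
  rw [sub_eq_add_neg]
  exact hf.add hg.neg

lemma IsMF527.sum {ι : Type*} (s : Finset ι) {f : ι → ℍ → ℂ} (hf : ∀ i ∈ s, IsMF527 Γ k (f i)) :
    IsMF527 Γ k (∑ i ∈ s, f i) :=
  Finset.sum_induction _ (fun g : ℍ → ℂ => IsMF527 Γ k g) (fun _ _ ha hb => ha.add hb)
    IsMF527.zero hf

lemma IsMF527.congr_weight {k' : ℤ} {f : ℍ → ℂ} (h : k = k') (hf : IsMF527 Γ k f) :
    IsMF527 Γ k' f := h ▸ hf

lemma IsMF527.levelOne_mul {w : ℤ} {a f : ℍ → ℂ} (ha : IsMF527 ⊤ w a) (hf : IsMF527 Γ k f) :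
    IsMF527 Γ (w + k) (a * f) := by
  have hs : ∀ γ : SL(2, ℤ), (a * f) ∣[w + k] γ = a * (f ∣[k] γ) := fun γ => by
    rw [ModularForm.mul_slash_SL2, ha.2.1 γ (Subgroup.mem_top γ)]
  refine ⟨ha.1.mul hf.1, fun γ hγ => ?_, fun γ => ?_⟩
  · rw [hs, hf.2.1 γ hγ]
  · rw [hs]
    have h1 := ha.2.2 1
    rw [SlashAction.slash_one] at h1
    exact h1.mul (hf.2.2 γ)

lemma isMF527_one : IsMF527 ⊤ 0 (1 : ℍ → ℂ) := by
  refine ⟨mdifferentiable_const, fun γ _ => ModularForm.is_invariant_one γ, fun γ => ?_⟩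
  rw [ModularForm.is_invariant_one]
  exact const_boundedAtFilter atImInfty (1 : ℂ)

lemma isMF527_of_modularForm {w : ℤ} (f : ModularForm 𝒮ℒ w) : IsMF527 ⊤ w (⇑f) := by
  have hs : ∀ γ : SL(2, ℤ), (f : ℍ → ℂ) ∣[w] γ = f := fun γ =>
    SlashInvariantFormClass.slash_action_eq f _ ⟨γ, rfl⟩
  refine ⟨ModularFormClass.holo f, fun γ _ => hs γ, fun γ => ?_⟩
  rw [hs γ]
  exact ModularFormClass.bdd_at_infty f

lemma isMF527_discriminant : IsMF527 ⊤ 12 ModularForm.discriminant := by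
  have hs : ∀ γ : SL(2, ℤ), (CuspForm.discriminant : ℍ → ℂ) ∣[(12 : ℤ)] γ =
      CuspForm.discriminant := fun γ =>
    SlashInvariantFormClass.slash_action_eq CuspForm.discriminant _ ⟨γ, rfl⟩
  refine ⟨CuspFormClass.holo CuspForm.discriminant, fun γ _ => hs γ, fun γ => ?_⟩
  have := hs γ
  have h2 : (ModularForm.discriminant ∣[(12 : ℤ)] γ) = ModularForm.discriminant := this
  rw [h2]
  exact ModularForm.discriminant_isZeroAtImInfty.isBoundedAtImInfty

end closure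

section limits

/-- A level one modular form tends to its `0`-th `q`-coefficient at `i∞`. -/
lemma tendsto_of_modularForm {w : ℤ} (f : ModularForm 𝒮ℒ w) :
    Tendsto (⇑f : ℍ → ℂ) atImInfty (𝓝 ((qExpansion 1 f).coeff 0)) := by
  have hmf := isMF527_of_modularForm f
  have hper : ∀ τ : ℍ, (f : ℍ → ℂ) ((1 : ℝ) +ᵥ τ) = f τ := by
    intro τ
    have h1 := congrFun (hmf.2.1 ModularGroup.T (Subgroup.mem_top _)) τ
    rwa [slash_T_apply] at h1
  have hbd : IsBoundedAtImInfty (f : ℍ → ℂ) := by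
    have := hmf.2.2 1
    rwa [SlashAction.slash_one] at this
  have hperC := periodic_comp_ofComplex hper
  have han := UpperHalfPlane.analyticAt_cuspFunction_zero one_pos hperC hmf.1 hbd
  rw [UpperHalfPlane.qExpansion_coeff_zero one_pos han hperC,
    ← UpperHalfPlane.cuspFunction_apply_zero one_pos han hperC]
  have hq : Tendsto (fun τ : ℍ => Function.Periodic.qParam 1 τ) atImInfty (𝓝 0) :=
    qParam_tendsto_atImInfty one_pos
  have := han.continuousAt.tendsto.comp hq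
  refine this.congr fun τ => ?_
  simp only [comp_apply]
  exact UpperHalfPlane.eq_cuspFunction τ one_ne_zero hperC

lemma tendsto_E₄ : Tendsto (⇑E₄ : ℍ → ℂ) atImInfty (𝓝 1) := by
  have := tendsto_of_modularForm E₄
  rwa [E_qExpansion_coeff_zero (by norm_num) ⟨2, rfl⟩] at this

lemma tendsto_E₆ : Tendsto (⇑E₆ : ℍ → ℂ) atImInfty (𝓝 1) := by
  have := tendsto_of_modularForm E₆
  rwa [E_qExpansion_coeff_zero (by norm_num) ⟨3, rfl⟩] at this

/-- Level one monomials `E₄ ^ x * E₆ ^ y`. -/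
lemma exists_monomial_nat (x y : ℕ) :
    ∃ a : ℍ → ℂ, IsMF527 ⊤ (4 * x + 6 * y) a ∧ Tendsto a atImInfty (𝓝 1) := by
  induction x with
  | zero =>
    induction y with
    | zero =>
      refine ⟨1, isMF527_one.congr_weight (by simp), tendsto_const_nhds⟩
    | succ y ih =>
      obtain ⟨a, ha, hlim⟩ := ih
      refine ⟨⇑E₆ * a, ((isMF527_of_modularForm E₆).levelOne_mul ha).congr_weight
        (by push_cast; ring), ?_⟩
      have := tendsto_E₆.mul hlim
      rw [one_mul] at this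
      exact this
  | succ x ih =>
    obtain ⟨a, ha, hlim⟩ := ih
    refine ⟨⇑E₄ * a, ((isMF527_of_modularForm E₄).levelOne_mul ha).congr_weight
      (by push_cast; ring), ?_⟩
    have := tendsto_E₄.mul hlim
    rw [one_mul] at this
    exact this

lemma exists_monomial (n : ℤ) (hn : Even n) (h4 : 4 ≤ n) :
    ∃ a : ℍ → ℂ, IsMF527 ⊤ n a ∧ Tendsto a atImInfty (𝓝 1) := by
  obtain ⟨m, hm⟩ := hn
  obtain ⟨x, y, hxy⟩ : ∃ x y : ℕ, n = 4 * (x : ℤ) + 6 * (y : ℤ) := by
    rcases Int.emod_two_eq_zero_or_one m with h | h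
    · refine ⟨(m / 2).toNat, 0, ?_⟩
      have : (0 : ℤ) ≤ m / 2 := by omega
      rw [Int.toNat_of_nonneg this]
      omega
    · refine ⟨((m - 3) / 2).toNat, 1, ?_⟩
      have : (0 : ℤ) ≤ (m - 3) / 2 := by omega
      rw [Int.toNat_of_nonneg this]
      omega
  obtain ⟨a, ha, hlim⟩ := exists_monomial_nat x y
  exact ⟨a, ha.congr_weight hxy.symm, hlim⟩

end limits

section evenness

/-- A nonzero function invariant under `-1` in weight `k` forces `k` even. -/
lemma even_weight_of_ne_zero {Γ : Subgroup SL(2, ℤ)} (hΓ : (-1 : SL(2, ℤ)) ∈ Γ) {k : ℤ}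
    {f : ℍ → ℂ} (hf : ∀ γ ∈ Γ, f ∣[k] γ = f) (hne : f ≠ 0) : Even k := by
  by_contra hodd
  rw [Int.not_even_iff_odd] at hodd
  apply hne
  funext τ
  have h1 := congrFun (hf _ hΓ) τ
  rw [SL_slash_apply] at h1
  have hden : denom ((-1 : SL(2, ℤ))) τ = -1 := by
    rw [ModularGroup.denom_apply]
    simp
  have hsmul : ((-1 : SL(2, ℤ)) • τ) = τ := by
    simp
  rw [hden, hsmul, zpow_neg, hodd.neg_one_zpow] at h1
  have : f τ * (-1)⁻¹ = f τ := h1
  simp only [Pi.zero_apply]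
  have h2 : f τ * (-1 : ℂ)⁻¹ = - f τ := by
    rw [inv_neg, inv_one, mul_neg, mul_one]
  rw [h2] at this
  have h3 : (2 : ℂ) * f τ = 0 := by linear_combination -this
  simpa using h3

end evenness

end Fermat.Agent.S20.Infty527
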